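import Fermat.Agent.S15.Red.Iface
import Fermat.Agent.S15.Atl.Defs

/-!
# S15-RED: the family of kernels of reduction `Kfam N A`
-/

set_option autoImplicit false
set_option synthInstance.maxHeartbeats 400000

noncomputable section

namespace Fermat.Agent.S15.Red

open AlgebraicCurve ModularCurve Fermat.Agent.GR Fermat.Agent.GR.E Fermat.Agent.GR.S

/-- a valuation subring lies over at most one prime. -/
theorem prime_unique {A : ValuationSubring Qb} {q q' : ℕ} (hq : q.Prime) (hq' : q'.Prime)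
    (hA : A.LiesOverPrime q) (hA' : A.LiesOverPrime q') : q = q' := by
  by_contra hne
  have hcop : Nat.Coprime q q' := (Nat.coprime_primes hq hq').2 hne
  have hbez : ((q : ℤ).gcdA q' * q + (q : ℤ).gcdB q' * q' : ℤ) = 1 := by
    have h := Int.gcd_eq_gcd_ab (q : ℤ) (q' : ℤ)
    have h1 : Int.gcd (q : ℤ) (q' : ℤ) = 1 := by
      rw [Int.gcd_natCast_natCast]
      exact hcop
    rw [h1] at h
    push_cast at h
    linarith
  have hcast : (((q : ℤ).gcdA q' : ℤ) : Qb) * (q : Qb) + (((q : ℤ).gcdB q' : ℤ) : Qb) * (q' : Qb)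
      = 1 := by
    exact_mod_cast congrArg (Int.cast : ℤ → Qb) hbez
  have hint : ∀ n : ℤ, (n : Qb) ∈ A := fun n => intCast_mem A n
  have h1 : (((q : ℤ).gcdA q' : ℤ) : Qb) * (q : Qb) ∈ A.nonunits :=
    R.Dom_nonunits_mul A (hint _) hA
  have h2 : (((q : ℤ).gcdB q' : ℤ) : Qb) * (q' : Qb) ∈ A.nonunits :=
    R.Dom_nonunits_mul A (hint _) hA'
  have h3 := R.Dom_nonunits_add A h1 h2
  rw [hcast] at h3
  exact R.Dom_one_not_mem_nonunits A h3

open Classical in
/-- THE FAMILY OF KERNELS OF REDUCTION. -/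
def Kfam (N : ℕ) [NeZero N] (A : ValuationSubring Qb) : AddSubgroup (JZero N) :=
  if h : ∃ q : ℕ, q.Prime ∧ A.LiesOverPrime q then K1q N h.choose A else ⊥

theorem Kfam_eq (N : ℕ) [NeZero N] {A : ValuationSubring Qb} {q : ℕ} (hq : q.Prime)
    (hA : A.LiesOverPrime q) : Kfam N A = K1q N q A := by
  have h : ∃ q : ℕ, q.Prime ∧ A.LiesOverPrime q := ⟨q, hq, hA⟩
  unfold Kfam
  rw [dif_pos h, prime_unique h.choose_spec.1 hq h.choose_spec.2 hA]

theorem k1Fam (N : ℕ) [NeZero N] : Atl.K1Fam N (Kfam N) where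
  inert := by
    intro q hq hqN A hA σ hσ z
    rw [Kfam_eq N hq hA]
    exact smul_sub_mem_K1 (dvd_lvl N q) (rd A N q) (isRed_rd N hq hqN A hA) hσ z
  es := by
    intro q hq hqN A hA φ hφ x
    rw [Kfam_eq N hq hA]
    exact es_mem_K1 (dvd_lvl N q) (rd A N q) (isRed_rd N hq hqN A hA) hq hqN hA hφ x
  tor := by
    intro q hq hqN A hA m hm x hx hmx
    rw [Kfam_eq N hq hA] at hx
    obtain ⟨k, hk⟩ := relfinrank_lvl N hq
    exact eq_zero_of_mem_K1 (dvd_lvl N q) (rd A N q) (isRed_rd N hq hqN A hA) hq hA (baseH q)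
      (hasModel_lvl N hq hqN A hA) k hk m hm x hx hmx

end Fermat.Agent.S15.Red
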