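import Fermat.Agent.GR.D.Top.Main
import Fermat.Agent.GR.S.K1
import Fermat.Agent.GR.S.R.Main
import Fermat.Agent.Lib.Frobenius

/-!
# S15-RED: interface.  The concrete reduction map at a prime `q ∤ N`
-/

set_option autoImplicit false
set_option synthInstance.maxHeartbeats 400000

noncomputable section

namespace Fermat.Agent.S15.Red

open AlgebraicCurve ModularCurve Fermat.Agent.GR Fermat.Agent.GR.E Fermat.Agent.GR.S
  Fermat.Agent.S17.FF Fermat.Agent.GR.S.R Fermat.Agent.Lib Fermat.Agent.GR.D.Top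

local notation "𝔽" => modularFunctionFieldBar

/-- the auxiliary level at the residue characteristic `q`. -/
def lvl (N q : ℕ) : ℕ :=
  if q = 2 then (if 3 ∣ N then N else N * 3) else if q = 3 then (if 2 ∣ N then N else N * 2) else N

/-- the base function of the model at the residue characteristic `q`. -/
def baseH (q : ℕ) : LaurentSeries ℤ :=
  if q = 2 then Hauptmodul.h3 else if q = 3 then Hauptmodul.h2 else jqModC ℤ

theorem dvd_lvl (N q : ℕ) : N ∣ lvl N q := by
  unfold lvl
  split_ifs <;> first | exact dvd_rfl | exact Dvd.intro _ rfl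

instance neZero_lvl (N q : ℕ) [NeZero N] : NeZero (lvl N q) := by
  refine ⟨?_⟩
  unfold lvl
  split_ifs <;> first | exact NeZero.ne N | exact mul_ne_zero (NeZero.ne N) (by norm_num)

theorem lvl_of_five_le (N : ℕ) {q : ℕ} (hq : 5 ≤ q) : lvl N q = N := by
  unfold lvl
  rw [if_neg (by omega), if_neg (by omega)]

theorem baseH_of_five_le {q : ℕ} (hq : 5 ≤ q) : baseH q = jqModC ℤ := by
  unfold baseH
  rw [if_neg (by omega), if_neg (by omega)]

theorem not_dvd_lvl {N q : ℕ} (hq : q.Prime) (hqN : ¬ q ∣ N) : ¬ q ∣ lvl N q := by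
  unfold lvl
  split_ifs with h1 h2 h3 h4
  · exact hqN
  · subst h1
    intro h
    rcases (Nat.Prime.dvd_mul hq).1 h with h | h
    · exact hqN h
    · norm_num at h
  · exact hqN
  · subst h3
    intro h
    rcases (Nat.Prime.dvd_mul hq).1 h with h | h
    · exact hqN h
    · norm_num at h
  · exact hqN

theorem hasModel_lvl (N : ℕ) [NeZero N] {q : ℕ} (hq : q.Prime) (hqN : ¬ q ∣ N)
    (A : ValuationSubring Qb) (hA : A.LiesOverPrime q) : HasModel A (lvl N q) (baseH q) := by
  have hnd := not_dvd_lvl hq hqN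
  by_cases h2 : q = 2
  · have h3 : 3 ∣ lvl N q := by
      unfold lvl
      rw [if_pos h2]
      split_ifs with h
      · exact h
      · exact Dvd.intro_left N rfl
    have hb : baseH q = Hauptmodul.h3 := by
      unfold baseH
      rw [if_pos h2]
    rw [hb]
    exact hasModel_h3 (lvl N q) h3 q hq hnd A hA
  by_cases h3 : q = 3
  · have h2' : 2 ∣ lvl N q := by
      unfold lvl
      rw [if_neg h2, if_pos h3]
      split_ifs with h
      · exact h
      · exact Dvd.intro_left N rfl
    have hb : baseH q = Hauptmodul.h2 := by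
      unfold baseH
      rw [if_neg h2, if_pos h3]
    rw [hb]
    exact hasModel_h2 (lvl N q) h2' q hq hnd A hA
  · have h5 : 5 ≤ q := by
      have := hq.two_le
      by_contra hlt
      have h4 : q = 4 := by omega
      subst h4
      exact absurd hq (by norm_num)
    have e : lvl N q = N := lvl_of_five_le N h5
    rw [baseH_of_five_le h5]
    have := hasModel_j N q hq h5 hqN A hA
    rw [e]
    exact this

theorem relfinrank_lvl (N : ℕ) [NeZero N] {q : ℕ} (hq : q.Prime) :
    ∃ k : ℕ, (FF Qb N).relfinrank (FF Qb (lvl N q)) = q ^ k := by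
  unfold lvl
  split_ifs with h1 h2 h3 h4
  · exact ⟨0, by rw [IntermediateField.relfinrank_self, pow_zero]⟩
  · exact ⟨2, by rw [relfinrank_FF_mul_prime N 3 Nat.prime_three h2, h1]; norm_num⟩
  · exact ⟨0, by rw [IntermediateField.relfinrank_self, pow_zero]⟩
  · exact ⟨1, by rw [relfinrank_FF_mul_prime N 2 Nat.prime_two h4, h3]; norm_num⟩
  · exact ⟨0, by rw [IntermediateField.relfinrank_self, pow_zero]⟩

/-- the concrete form of `GR.S.exists_isRed`. -/
theorem isRed_red (A : ValuationSubring Kb) (ℓ : ℕ) (hℓ : ℓ.Prime) (hA : A.LiesOverPrime ℓ)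
    (N' : ℕ) (H : LaurentSeries ℤ) (hM : HasModel A N' H)
    (E : IntermediateField Kb (LaurentSeries Kb)) (hE : E = FF Kb N') [IsFF Kb E] (h' : E)
    (hh' : (h' : LaurentSeries Kb) = baseFn Qb H) : IsRed A E (R.red A h') := by
  subst hE
  obtain rfl : h' = ⟨baseFn Qb H, hM.mem Qb⟩ := Subtype.ext hh'
  obtain ⟨𝒪, h𝒪⟩ := exists_isGaussRing A N'
  have G : GaussData A 𝒪 := h𝒪.gaussData
  set h : FF Qb N' := ⟨baseFn Qb H, hM.mem Qb⟩ with hh
  obtain ⟨L0, L1⟩ := Main_levelChart A ℓ hℓ hA N' H hM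
  have C0 : RChart A 𝒪 h := Main_rChart hℓ hA h𝒪 L0 hM.transc
  have C1 : RChart A 𝒪 h⁻¹ := Main_rChart hℓ hA h𝒪 L1 (BR7_transcendental_inv hM.transc)
  have h0 : h ≠ 0 := by
    intro h0
    apply hM.transc
    rw [← hh, h0]
    exact isAlgebraic_zero
  refine ⟨?_, ?_, ?_⟩
  · -- inert
    intro σ g hσ hg P
    refine red_smul G h0 C0 C1 g (smul_baseFn H _ σ g hg) (fun a => ?_)
      (smul_sub_mem_nonunits h𝒪 σ hσ g hg) P
    rw [baseAut_eq_of_gal σ g hg a]
    exact mem_iff_of_mem_inertia σ hσ a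
  · -- cong
    intro a b ha hb hab D hD
    have hb0 : b ≠ 0 := by
      rintro rfl
      obtain ⟨_, n, hn⟩ := hb
      exact hn (by simpa using A.nonunits.zero_mem)
    have hw : a / b - 1 ∈ 𝒪.nonunits := by
      rw [h𝒪.spec']
      refine ⟨(a : LaurentSeries Qb) - b, b, sub_mem a.2 b.2, b.2, fun n => ?_, hb, ?_⟩
      · rw [HahnSeries.coeff_sub]
        exact hab n
      · have : (a / b - 1) * b = a - b := by field_simp
        exact_mod_cast congrArg (Subtype.val) this
    have hD' : D = divf (K := Qb) (a / b) := by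
      ext P
      rw [hD P, divf_apply]
    rw [hD']
    exact mapDomain_red_eq_zero G h0 C0 C1 hw
  · -- const
    intro u hu D hD hD0
    have hD' : D = divf (K := Qb) u := by
      ext P
      rw [hD P, divf_apply]
    rw [hD'] at hD0
    obtain ⟨κ, hκ, hmem⟩ := exists_const_of_mapDomain_red G h0 C0 C1 hu hD0
    rw [h𝒪.spec'] at hmem
    obtain ⟨f, g, hf, hg, hf0, hgp, hfg⟩ := hmem
    have hC : ((algebraMap Qb (FF Qb N') κ : FF Qb N') : LaurentSeries Qb) = HahnSeries.C κ := by
      rw [IntermediateField.coe_algebraMap_apply, algebraMap_laurentSeries_eq_single,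
        HahnSeries.C_apply]
    have hC0 : (HahnSeries.C κ : LaurentSeries Qb) ≠ 0 := by
      rw [← hC]
      simpa using hκ
    refine ⟨κ, ⟨f + g, add_mem hf hg⟩, ⟨g, hg⟩, hκ, ⟨fun n => ?_, ?_⟩, hgp.1, fun n => ?_, ?_⟩
    · change (f + g).coeff n ∈ A
      rw [HahnSeries.coeff_add]
      exact A.add_mem _ _ (A.nonunits_subset (hf0 n)) (hgp.1 n)
    · obtain ⟨n, hn⟩ := hgp.2
      refine ⟨n, fun hmem => hn ?_⟩
      change (f + g).coeff n ∈ A.nonunits at hmem
      rw [HahnSeries.coeff_add] at hmem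
      have h1 : -f.coeff n ∈ A.nonunits := by
        rw [ValuationSubring.mem_nonunits_iff, Valuation.map_neg,
          ← ValuationSubring.mem_nonunits_iff]
        exact hf0 n
      have h2 := BR7_add_mem_nonunits A hmem h1
      rwa [add_comm (f.coeff n), add_neg_cancel_right] at h2
    · change (f + g).coeff n - g.coeff n ∈ A.nonunits
      rw [HahnSeries.coeff_add, add_sub_cancel_right]
      exact hf0 n
    · change (u : LaurentSeries Qb) * g = HahnSeries.C κ * (f + g)
      have e : ((u / algebraMap Qb (FF Qb N') κ - 1 : FF Qb N') : LaurentSeries Qb) =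
          (u : LaurentSeries Qb) / HahnSeries.C κ - 1 := by
        rw [← hC]
        push_cast
        rfl
      rw [← hfg, e]
      field_simp
      ring


/-- the base function as an element of the function field of level `lvl N q`. -/
def hb (N q : ℕ) [NeZero N] : 𝔽 (lvl N q) :=
  open Classical in
  if h : baseFn Qb (baseH q) ∈ 𝔽 (lvl N q) then ⟨baseFn Qb (baseH q), h⟩ else 1

theorem coe_hb (N : ℕ) [NeZero N] {q : ℕ} (hq : q.Prime) (hqN : ¬ q ∣ N) :
    (hb N q : LaurentSeries Kb) = baseFn Qb (baseH q) := by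
  obtain ⟨A, hA⟩ : ∃ A : ValuationSubring Qb, A.LiesOverPrime q :=
    Fermat.Agent.Lib.Frobenius.exists_liesOverPrime q hq
  have h : baseFn Qb (baseH q) ∈ 𝔽 (lvl N q) := by
    rw [bar_eq_FF]
    exact (hasModel_lvl N hq hqN A hA).mem Qb
  unfold hb
  rw [dif_pos h]

/-- THE REDUCTION MAP at `A` (a valuation subring of `Q̄` over the prime `q ∤ N`): helper45's
reduction classes for the two charts `hb`, `hb⁻¹` of the model of level `lvl N q`. -/
def rd (A : ValuationSubring Kb) (N q : ℕ) [NeZero N] :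
    Place Kb (𝔽 (lvl N q)) → Set (𝔽 (lvl N q)) ⊕ Set (𝔽 (lvl N q)) :=
  R.red A (hb N q)

theorem isRed_rd (N : ℕ) [NeZero N] {q : ℕ} (hq : q.Prime) (hqN : ¬ q ∣ N)
    (A : ValuationSubring Kb) (hA : A.LiesOverPrime q) : IsRed A (𝔽 (lvl N q)) (rd A N q) :=
  isRed_red A q hq hA (lvl N q) (baseH q) (hasModel_lvl N hq hqN A hA) _ (bar_eq_FF _) _
    (coe_hb N hq hqN)

/-- THE KERNEL OF REDUCTION: classes of divisors of degree `0` on `X₀(N)` whose pull back to level
`lvl N q` has trivial reduction. -/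
def K1q (N q : ℕ) [NeZero N] (A : ValuationSubring Kb) : AddSubgroup (JZero N) :=
  K1 (dvd_lvl N q) (rd A N q)

end Fermat.Agent.S15.Red
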