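import Fermat.Agent.S15.Red.Fam
import Fermat.Agent.S15.Red.Fin.Main
import Fermat.Agent.S15.Top

/-!
# S15-RED: export towards `S15/Top.lean`
-/

set_option autoImplicit false
set_option synthInstance.maxHeartbeats 400000

noncomputable section

namespace Fermat.Agent.S15.Red

open AlgebraicCurve ModularCurve Fermat.Agent.GR Fermat.Agent.GR.E Fermat.Agent.GR.S

/-- (FIN) for the family `Kfam`. -/
theorem fin_Kfam (N : ℕ) [NeZero N] {q : ℕ} (hq : q.Prime) (hqN : ¬ q ∣ N)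
    (A : ValuationSubring Qb) (hA : A.LiesOverPrime q) :
    ∃ m : ℕ, 0 < m ∧ ∀ w : JZero N, (∀ σ ∈ A.decompositionSubgroup ℚ, σ • w = w) →
      m • w ∈ Kfam N A := by
  rw [Kfam_eq N hq hA]
  exact fin_K1q N hq hqN A hA

/-- the contract `RFin` of `S15/Top.lean` for `J1 := Atl.J1 (Kfam p) ℓ`. -/
theorem rFin {p ℓ : ℕ} [NeZero p] (hp : p.Prime) (hℓ : ℓ.Prime) :
    RFin (JZero p) p ℓ (Atl.J1 (Kfam p) ℓ) where
  J1_fin := by
    intro q hq hqp hqℓ A hA
    have hqN : ¬ q ∣ p := fun h => hqp ((Nat.prime_dvd_prime_iff_eq hq hp).1 h)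
    obtain ⟨m, hm, h⟩ := fin_Kfam p hq hqN A hA
    refine ⟨m, hm, fun w hw => ?_⟩
    have hnot : ¬ A.LiesOverPrime ℓ := fun h' => hqℓ (prime_unique hq hℓ hA h')
    rw [Atl.J1_of_not_liesOver _ hnot, Atl.mem_J1D]
    intro δ hδ
    have e : δ • (m • w) = m • (δ • w) :=
      map_nsmul (DistribSMul.toAddMonoidHom (JZero p) δ) m w
    rw [e, hw δ hδ]
    exact h w hw

end Fermat.Agent.S15.Red
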