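import Fermat.Agent.S17.WMW.Rat

/-!
# S15-RED / S15-ATP : the canonical (reduced) divisor of a class

Every class `x : JZero N` is represented by `E - m ∞` with `E ≥ 0`, `ℓ(E) = 1`, `deg E = m ≤ g`, and
**every** `σ : GQ` fixing the class `x` fixes the divisor `E` (per-`σ` version of
`S17.WMW.exists_stable_divisor`).
-/

set_option autoImplicit false
set_option synthInstance.maxHeartbeats 400000

noncomputable section

namespace Fermat.Agent.S15.Red

open AlgebraicCurve ModularCurve Fermat.Agent.S17 Fermat.Agent.S17.WMW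

variable (N : ℕ) [NeZero N]

/-- **canonical divisor of a class.** -/
theorem exists_canonical_divisor (x : JZero N) :
    ∃ (m : ℤ) (E : Divisor Qb (FB N)) (hdeg : Divisor.degree (E - Finsupp.single (oo N) m) = 0),
      0 ≤ E ∧ FF.ell E = 1 ∧
      (Pic0.mk (⟨E - Finsupp.single (oo N) m, hdeg⟩ : Divisor.degZero (K := Qb) (F := FB N)) :
        JZero N) = x ∧
      ∀ σ : GQ, σ • x = x → gal N σ • E = E := by
  have hFF : FF.IsFF Qb (FB N) := isFF_bar N
  obtain ⟨D, rfl⟩ := Pic0.mk_surjective x
  obtain ⟨m, E, hE0, hE1, hEp⟩ := exists_reduced (oo N) (D : Divisor Qb (FB N))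
  have hstab : ∀ σ : GQ, σ • (Pic0.mk D : JZero N) = Pic0.mk D → gal N σ • E = E := by
    intro σ hx
    apply eq_of_isPrincipal_sub hE0 _ hE1
    · have h1 : Divisor.IsPrincipal (gal N σ • (E - ((D : Divisor Qb (FB N)) +
          Finsupp.single (oo N) m))) := SemilinearAut.smul_mem_principal (gal N σ) hEp
      have h2 : Divisor.IsPrincipal (gal N σ • (D : Divisor Qb (FB N)) -
          (D : Divisor Qb (FB N))) := by
        have := hx
        rw [smul_mk, mk_eq_mk_iff] at this
        exact this
      have h3 := (Divisor.principal (K := Qb) (F := FB N)).sub_mem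
        ((Divisor.principal (K := Qb) (F := FB N)).add_mem h1 h2) hEp
      have e : gal N σ • (E - ((D : Divisor Qb (FB N)) + Finsupp.single (oo N) m)) +
          (gal N σ • (D : Divisor Qb (FB N)) - (D : Divisor Qb (FB N))) -
          (E - ((D : Divisor Qb (FB N)) + Finsupp.single (oo N) m)) = gal N σ • E - E := by
        rw [smul_sub, smul_add, SemilinearAut.smul_single, gal_smul_oo]
        abel
      rw [e] at h3
      exact h3
    · intro w
      rw [SemilinearAut.divisor_smul_apply]
      exact hE0 _
  have hdeg : Divisor.degree (E - Finsupp.single (oo N) m) = 0 := by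
    have h1 := Rat_degree_of_isPrincipal hEp
    have h2 : Divisor.degree (D : Divisor Qb (FB N)) = 0 := D.2
    have e : E - Finsupp.single (oo N) m =
        (E - ((D : Divisor Qb (FB N)) + Finsupp.single (oo N) m)) + (D : Divisor Qb (FB N)) := by
      abel
    rw [e, map_add, h1, h2, add_zero]
  refine ⟨m, E, hdeg, hE0, hE1, ?_, hstab⟩
  rw [mk_eq_mk_iff]
  have e : E - Finsupp.single (oo N) m - (D : Divisor Qb (FB N)) =
      E - ((D : Divisor Qb (FB N)) + Finsupp.single (oo N) m) := by abel
  show Divisor.IsPrincipal (E - Finsupp.single (oo N) m - (D : Divisor Qb (FB N)))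
  rw [e]
  exact hEp

/-- the degree-zero form: a representative `D₀` fixed by every `σ` fixing the class. -/
theorem exists_divisor_fixed (x : JZero N) :
    ∃ D₀ : Divisor.degZero (K := Qb) (F := FB N), (Pic0.mk D₀ : JZero N) = x ∧
      ∀ σ : GQ, σ • x = x → gal N σ • (D₀ : Divisor Qb (FB N)) = D₀ := by
  obtain ⟨m, E, hdeg, _, _, hx, hst⟩ := exists_canonical_divisor N x
  refine ⟨⟨E - Finsupp.single (oo N) m, hdeg⟩, hx, fun σ hσ => ?_⟩
  show gal N σ • (E - Finsupp.single (oo N) m) = E - Finsupp.single (oo N) m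
  rw [smul_sub, hst σ hσ, SemilinearAut.smul_single, gal_smul_oo]

end Fermat.Agent.S15.Red
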