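import Fermat.Agent.S15.Red.Iface

/-!
# S15-RED: the Gauss ring and the two charts behind the reduction map `rd`
-/

set_option autoImplicit false
set_option synthInstance.maxHeartbeats 400000

noncomputable section

namespace Fermat.Agent.S15.Red

open AlgebraicCurve ModularCurve Fermat.Agent.GR Fermat.Agent.GR.E Fermat.Agent.GR.S
  Fermat.Agent.S17.FF Fermat.Agent.GR.S.R Fermat.Agent.Lib Fermat.Agent.GR.D.Top

local notation "𝔽" => modularFunctionFieldBar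

/-- the data behind `GR.S.R.red A h'`: Gauss ring and the two charts. -/
structure GaussPack (A : ValuationSubring Kb) (E : IntermediateField Kb (LaurentSeries Kb))
    [IsFF Kb E] (h' : E) (𝒪 : ValuationSubring E) : Prop where
  G : GaussData A 𝒪
  h0 : h' ≠ 0
  C0 : RChart A 𝒪 h'
  C1 : RChart A 𝒪 h'⁻¹
  /-- `u ∈ 𝒪` iff `u = f / g` with `f` integral and `g` primitive. -/
  spec : ∀ u : E, u ∈ 𝒪 ↔ ∃ f g : LaurentSeries Kb, f ∈ E ∧ g ∈ E ∧ IsInt A f ∧ IsPrim A g ∧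
    (u : LaurentSeries Kb) * g = f
  /-- `u ∈ 𝔪_𝒪` iff `u = f / g` with all the coefficients of `f` in `𝔪_A` and `g` primitive. -/
  spec' : ∀ u : E, u ∈ 𝒪.nonunits ↔ ∃ f g : LaurentSeries Kb, f ∈ E ∧ g ∈ E ∧
    (∀ n : ℤ, f.coeff n ∈ A.nonunits) ∧ IsPrim A g ∧ (u : LaurentSeries Kb) * g = f

theorem exists_gaussPack_of (A : ValuationSubring Kb) (ℓ : ℕ) (hℓ : ℓ.Prime)
    (hA : A.LiesOverPrime ℓ) (N' : ℕ) (H : LaurentSeries ℤ) (hM : HasModel A N' H)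
    (E : IntermediateField Kb (LaurentSeries Kb)) (hE : E = FF Kb N') [IsFF Kb E] (h' : E)
    (hh' : (h' : LaurentSeries Kb) = baseFn Qb H) :
    ∃ 𝒪 : ValuationSubring E, GaussPack A E h' 𝒪 := by
  subst hE
  obtain rfl : h' = ⟨baseFn Qb H, hM.mem Qb⟩ := Subtype.ext hh'
  obtain ⟨𝒪, h𝒪⟩ := exists_isGaussRing A N'
  have G : GaussData A 𝒪 := h𝒪.gaussData
  set h : FF Qb N' := ⟨baseFn Qb H, hM.mem Qb⟩ with hh
  obtain ⟨L0, L1⟩ := Main_levelChart A ℓ hℓ hA N' H hM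
  have C0 : RChart A 𝒪 h := Main_rChart hℓ hA h𝒪 L0 hM.transc
  have C1 : RChart A 𝒪 h⁻¹ := Main_rChart hℓ hA h𝒪 L1 (BR7_transcendental_inv hM.transc)
  have h0 : h ≠ 0 := by
    intro h0
    apply hM.transc
    rw [← hh, h0]
    exact isAlgebraic_zero
  exact ⟨𝒪, G, h0, C0, C1, h𝒪.spec, h𝒪.spec'⟩

/-- THE GAUSS RING AND THE CHARTS OF `rd A N q = GR.S.R.red A (hb N q)`. -/
theorem exists_gaussPack (N : ℕ) [NeZero N] {q : ℕ} (hq : q.Prime) (hqN : ¬ q ∣ N)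
    (A : ValuationSubring Kb) (hA : A.LiesOverPrime q) :
    ∃ 𝒪 : ValuationSubring (𝔽 (lvl N q)), GaussPack A (𝔽 (lvl N q)) (hb N q) 𝒪 :=
  exists_gaussPack_of A q hq hA (lvl N q) (baseH q) (hasModel_lvl N hq hqN A hA) _ (bar_eq_FF _) _
    (coe_hb N hq hqN)

variable {A : ValuationSubring Kb} {E : IntermediateField Kb (LaurentSeries Kb)} [IsFF Kb E]
  {h' : E} {𝒪 : ValuationSubring E}

theorem GaussPack.mem_of_isInt (P : GaussPack A E h' 𝒪) {u : E}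
    (hu : IsInt A (u : LaurentSeries Kb)) : u ∈ 𝒪 :=
  (P.spec u).2 ⟨u, 1, u.2, one_mem E, hu, Gauss_isPrim_one A, mul_one _⟩

theorem GaussPack.inv_mem_of_isPrim (P : GaussPack A E h' 𝒪) {u : E}
    (hu : IsPrim A (u : LaurentSeries Kb)) : u⁻¹ ∈ 𝒪 := by
  have hu0 : (u : LaurentSeries Kb) ≠ 0 := Gauss_isPrim_ne_zero A hu
  refine (P.spec u⁻¹).2 ⟨1, u, one_mem E, u.2, (Gauss_isPrim_one A).1, hu, ?_⟩
  show (u : LaurentSeries Kb)⁻¹ * (u : LaurentSeries Kb) = 1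
  exact inv_mul_cancel₀ hu0

end Fermat.Agent.S15.Red
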